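import Fermat.Agent.S27.H2186.Chart6746.Chart

/-!
# S27 (helper2186): consequences of helper6746's analytic chart `Chart6746.IsChart`

Skeleton-independent facts about a chart `(ε, κ, m)` at a place of a function field `F/ℂ`
(`Fermat.Agent.S27.H2186.Chart6746.IsChart`, vendored copy of helper6746's `Chart6746`):

* `analyticAt_of_ord_nonneg` : `f` regular at `κ τ` ⟹ `m f` analytic at `τ`;
* `eq_or_ord_sub_pos` : `m f τ` is the value of `f` at `κ τ` (`f = c ∨ 0 < ord (f - c)`);
* `value_unique` : values at a place are unique;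
* `eventually_ord_nonneg` : regularity at `κ τ` is an open condition in `τ`;
* `analyticOrderAt_eq` : the order of vanishing of `m f` at `τ` is `(κ τ).ord f`;
* `ord_unif_nonneg`, `ord_sub_unif` : `t - τ` is a uniformizer at `κ τ`.
-/

set_option autoImplicit false

namespace Fermat.Agent.S27.H2186.ChartFacts

open AlgebraicCurve Metric Set Filter Topology
open Fermat.Agent.S27.H2186.Chart6746

variable {F : Type*} [Field F] [Algebra ℂ F]

/-- `ord (-f) = ord f`. -/
theorem ord_neg (Q : Place ℂ F) (f : F) : Q.ord (-f) = Q.ord f := by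
  simp [Place.ord, Valuation.map_neg]

/-- Values of a function at a place are unique. -/
theorem value_unique (Q : Place ℂ F) {f : F} {c c' : ℂ}
    (h : f = algebraMap ℂ F c ∨ 0 < Q.ord (f - algebraMap ℂ F c))
    (h' : f = algebraMap ℂ F c' ∨ 0 < Q.ord (f - algebraMap ℂ F c')) : c = c' := by
  by_contra hne
  have hd : algebraMap ℂ F c - algebraMap ℂ F c' ≠ 0 := by
    intro h0
    exact hne ((algebraMap ℂ F).injective (sub_eq_zero.mp h0))
  have hd0 : Q.ord (algebraMap ℂ F c - algebraMap ℂ F c') = 0 := by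
    rw [← map_sub]
    exact Fermat.Agent.S24.A564.SO.Place_ord_algebraMap Q (c - c')
  rcases h with h | h
  · rcases h' with h' | h'
    · exact hne ((algebraMap ℂ F).injective (h.symm.trans h'))
    · rw [h, hd0] at h'
      exact lt_irrefl _ h'
  · rcases h' with h' | h'
    · rw [h', ← ord_neg, neg_sub, hd0] at h
      exact lt_irrefl _ h
    · have hsum : (f - algebraMap ℂ F c') + -(f - algebraMap ℂ F c) =
          algebraMap ℂ F c - algebraMap ℂ F c' := by ring
      have hge := Fermat.Agent.S24.A564.SO.Place_ord_add_ge Q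
        (f := f - algebraMap ℂ F c') (g := -(f - algebraMap ℂ F c)) (by rw [hsum]; exact hd)
      rw [hsum, hd0, ord_neg] at hge
      rcases min_le_iff.mp hge with h1 | h1 <;> omega

variable {P : Place ℂ F} {t : F} {ε : ℝ} {κ : ℂ → Place ℂ F} {m : F → ℂ → ℂ}

theorem m_zero (h : IsChart P t ε κ m) {τ : ℂ} (hτ : ‖τ‖ < ε) : m 0 τ = 0 := by
  have := h.map_const 0 τ hτ
  simpa using this

/-- In a chart, a function regular at `κ τ` reads as a function analytic at `τ`. -/
theorem analyticAt_of_ord_nonneg (h : IsChart P t ε κ m) {f : F} (hf : f ≠ 0) {τ : ℂ}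
    (hτ : ‖τ‖ < ε) (hord : 0 ≤ (κ τ).ord f) : AnalyticAt ℂ (m f) τ := by
  have hnf : MeromorphicNFAt (m f) τ := h.nf f (mem_ball_zero_iff.mpr hτ)
  rw [← hnf.meromorphicOrderAt_nonneg_iff_analyticAt, h.order f hf τ hτ]
  exact_mod_cast hord

/-- The set of `τ` in the disc is a neighbourhood of each of its points. -/
theorem eventually_norm_lt {τ : ℂ} (hτ : ‖τ‖ < ε) : ∀ᶠ σ in 𝓝 τ, ‖σ‖ < ε := by
  have : ball (0 : ℂ) ε ∈ 𝓝 τ := isOpen_ball.mem_nhds (mem_ball_zero_iff.mpr hτ)
  filter_upwards [this] with σ hσ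
  exact mem_ball_zero_iff.mp hσ

/-- Regularity of `f` at `κ τ` is an open condition in `τ`. -/
theorem eventually_ord_nonneg (h : IsChart P t ε κ m) {f : F} (hf : f ≠ 0) {τ : ℂ}
    (hτ : ‖τ‖ < ε) (hord : 0 ≤ (κ τ).ord f) :
    ∀ᶠ σ in 𝓝 τ, ‖σ‖ < ε ∧ 0 ≤ (κ σ).ord f := by
  have han := (analyticAt_of_ord_nonneg h hf hτ hord).eventually_analyticAt
  filter_upwards [han, eventually_norm_lt hτ] with σ hσ hσε
  refine ⟨hσε, ?_⟩
  have h1 := hσ.meromorphicOrderAt_nonneg
  rw [h.order f hf σ hσε] at h1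
  exact_mod_cast h1

/-- The order of vanishing of `m f` at `τ` is the order of `f` at `κ τ`. -/
theorem analyticOrderAt_eq (h : IsChart P t ε κ m) {f : F} (hf : f ≠ 0) {τ : ℂ}
    (hτ : ‖τ‖ < ε) (hord : 0 ≤ (κ τ).ord f) :
    analyticOrderAt (m f) τ = (((κ τ).ord f).toNat : ℕ∞) := by
  have han := analyticAt_of_ord_nonneg h hf hτ hord
  have h1 := han.meromorphicOrderAt_eq
  rw [h.order f hf τ hτ] at h1
  cases hn : analyticOrderAt (m f) τ with
  | top =>
    rw [hn] at h1
    exact absurd h1 (by simp)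
  | coe n =>
    rw [hn] at h1
    have h2 : (κ τ).ord f = (n : ℤ) := by
      have : (((κ τ).ord f : ℤ) : WithTop ℤ) = ((n : ℤ) : WithTop ℤ) := by
        rw [h1]; rfl
      exact_mod_cast this
    rw [h2]
    simp

/-- `m f τ` is the value of `f` at the place `κ τ`, when `f` is regular there. -/
theorem eq_or_ord_sub_pos (h : IsChart P t ε κ m) (f : F) {τ : ℂ} (hτ : ‖τ‖ < ε)
    (hord : 0 ≤ (κ τ).ord f) :
    f = algebraMap ℂ F (m f τ) ∨ 0 < (κ τ).ord (f - algebraMap ℂ F (m f τ)) := by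
  by_cases hg : f - algebraMap ℂ F (m f τ) = 0
  · exact Or.inl (sub_eq_zero.mp hg)
  right
  have hf : f ≠ 0 := by
    rintro rfl
    apply hg
    rw [m_zero h hτ]
    simp
  set c : ℂ := m f τ with hc
  have han : AnalyticAt ℂ (m f) τ := analyticAt_of_ord_nonneg h hf hτ hord
  have han' : AnalyticAt ℂ (fun σ => m f σ - c) τ := han.sub analyticAt_const
  -- `m (f - c)` agrees with `m f - c` on a punctured neighbourhood of `τ`
  have hEq : m (f - algebraMap ℂ F c) =ᶠ[𝓝[≠] τ] fun σ => m f σ - c := by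
    have h1 := h.map_add f (algebraMap ℂ F (-c)) τ hτ
    have h2 : ∀ᶠ σ in 𝓝[≠] τ, ‖σ‖ < ε := (eventually_norm_lt hτ).filter_mono nhdsWithin_le_nhds
    filter_upwards [h1, h2] with σ hσ hσε
    have h3 : f - algebraMap ℂ F c = f + algebraMap ℂ F (-c) := by
      rw [map_neg, sub_eq_add_neg]
    rw [h3, hσ, Pi.add_apply, h.map_const (-c) σ hσε]
    ring
  have hord' := h.order _ hg τ hτ
  rw [meromorphicOrderAt_congr hEq, han'.meromorphicOrderAt_eq] at hord'
  have hne0 : analyticOrderAt (fun σ => m f σ - c) τ ≠ 0 := by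
    rw [Ne, han'.analyticOrderAt_eq_zero]
    simp [hc]
  cases hn : analyticOrderAt (fun σ => m f σ - c) τ with
  | top =>
    rw [hn] at hord'
    exact absurd hord'.symm (by simp)
  | coe n =>
    rw [hn] at hord' hne0
    have hn0 : n ≠ 0 := by
      intro h0
      apply hne0
      rw [h0]
      rfl
    have h2 : (κ τ).ord (f - algebraMap ℂ F c) = (n : ℤ) := by
      have : (((κ τ).ord (f - algebraMap ℂ F c) : ℤ) : WithTop ℤ) = ((n : ℤ) : WithTop ℤ) := by
        rw [← hord']; rfl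
      exact_mod_cast this
    rw [h2]
    have : 0 < n := Nat.pos_of_ne_zero hn0
    exact_mod_cast this

/-- The coordinate function `t` is regular at every `κ τ`. -/
theorem ord_unif_nonneg (h : IsChart P t ε κ m) {τ : ℂ} (hτ : ‖τ‖ < ε) : 0 ≤ (κ τ).ord t := by
  by_cases ht : t = 0
  · rw [ht]; simp
  have hEq : m t =ᶠ[𝓝 τ] fun σ => σ := by
    filter_upwards [eventually_norm_lt hτ] with σ hσ
    exact h.map_unif σ hσ
  have han : AnalyticAt ℂ (m t) τ := (analyticAt_id.congr hEq.symm)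
  have h1 := han.meromorphicOrderAt_nonneg
  rw [h.order t ht τ hτ] at h1
  exact_mod_cast h1

/-- `t` takes the value `τ` at `κ τ`. -/
theorem unif_value (h : IsChart P t ε κ m) {τ : ℂ} (hτ : ‖τ‖ < ε) :
    t = algebraMap ℂ F τ ∨ 0 < (κ τ).ord (t - algebraMap ℂ F τ) := by
  have := eq_or_ord_sub_pos h t hτ (ord_unif_nonneg h hτ)
  rwa [h.map_unif τ hτ] at this

end Fermat.Agent.S27.H2186.ChartFacts
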