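import Mathlib
import Fermat.Prelude.Def_AlgebraicCurve_IsCurveOver

/-!
# S27, package T0 (helper6746): a Prelude curve is a function field in one variable

`Fermat.Agent.S27.H2186.T0.exists_transcendental_finiteDimensional`:
for `K` algebraically closed (perfect is enough) and `F/K` with `[IsCurveOver K F]`
and `[Algebra.EssFiniteType K F]`, there is `x : F`, transcendental over `K`, with
`F` finite-dimensional over `K⟮x⟯`.

Route: a separating transcendence basis `s` (Mathlib, perfect base field) gives
`Ω[F⁄K] ≅ F ⊗ Ω[K[s]⁄K]`, free of rank `#s`; `IsCurveOver` says the rank is one.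
-/

set_option autoImplicit false

namespace Fermat.Agent.S27.H2186.T0

open AlgebraicCurve KaehlerDifferential IntermediateField

variable {K F : Type*} [Field K] [Field F] [Algebra K F]

open scoped IntermediateField.algebraAdjoinAdjoin in
/-- If `v : ι → F` is algebraically independent over `K` and `F` is separable over `K(v)`,
then `Ω[F⁄K]` is free over `F` with a basis indexed by `ι`. -/
theorem nonempty_basis_kaehler_of_algebraicIndependent {ι : Type*} {v : ι → F}
    (hv : AlgebraicIndependent K v)
    [Algebra.IsSeparable (IntermediateField.adjoin K (Set.range v)) F] :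
    Nonempty (Module.Basis ι F Ω[F⁄K]) := by
  let A := Algebra.adjoin K (Set.range v)
  let L := IntermediateField.adjoin K (Set.range v)
  let P := MvPolynomial ι K
  let e : P ≃ₐ[K] A := hv.aevalEquiv
  -- `A` as a `P`-algebra through `e`
  let algPA : Algebra P A := e.toRingHom.toAlgebra
  let algPF : Algebra P F := ((algebraMap A F).comp e.toRingHom).toAlgebra
  have : IsScalarTower P A F := IsScalarTower.of_algebraMap_eq fun _ => rfl
  have : IsScalarTower K P A := IsScalarTower.of_algebraMap_eq fun r => by
    show algebraMap K A r = e (algebraMap K P r)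
    rw [e.commutes]
  have : IsScalarTower K P F := IsScalarTower.of_algebraMap_eq fun r => by
    show algebraMap K F r = algebraMap A F (e (algebraMap K P r))
    rw [e.commutes]
    rfl
  have e' : P ≃ₐ[P] A := AlgEquiv.ofRingEquiv (f := e.toRingEquiv) (fun _ => rfl)
  have : Algebra.FormallyEtale P A := Algebra.FormallyEtale.of_equiv e'
  have : Algebra.FormallyEtale A L := Algebra.FormallyEtale.of_isLocalization (nonZeroDivisors A)
  have : Algebra.FormallyEtale L F := Algebra.FormallyEtale.of_isSeparable L F
  have : Algebra.FormallyEtale A F := Algebra.FormallyEtale.comp A L F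
  have : Algebra.FormallyEtale P F := Algebra.FormallyEtale.comp P A F
  have hbc : IsBaseChange F (KaehlerDifferential.map K K P F) :=
    KaehlerDifferential.isBaseChange_of_formallyEtale K P F
  exact ⟨hbc.basis (KaehlerDifferential.mvPolynomialBasis K ι)⟩

/-- A finitely generated extension of a perfect field has a finite separating transcendence
basis `s`, and `Ω[F⁄K]` has rank `#s`. -/
theorem exists_finset_isTranscendenceBasis_finrank_kaehler [PerfectField K]
    [Algebra.EssFiniteType K F] :
    ∃ s : Finset F, IsTranscendenceBasis K ((↑) : s → F) ∧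
      Algebra.IsSeparable (IntermediateField.adjoin K (s : Set F)) F ∧
      Module.finrank F Ω[F⁄K] = s.card := by
  obtain ⟨s, hs, hsep⟩ := exists_isTranscendenceBasis_and_isSeparable_of_perfectField K F
  refine ⟨s, hs, hsep, ?_⟩
  have : Algebra.IsSeparable
      (IntermediateField.adjoin K (Set.range ((↑) : s → F))) F := by
    convert hsep <;> simp
  obtain ⟨b⟩ := nonempty_basis_kaehler_of_algebraicIndependent (K := K) (F := F) hs.1
  rw [Module.finrank_eq_card_basis b]
  simp

/-- **T0.** A Prelude curve `F/K` (`IsCurveOver`) which is essentially of finite type over a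
perfect field `K` is a function field in one variable: there is a transcendental `x` with
`F` finite over `K(x)`. -/
theorem exists_transcendental_finiteDimensional [PerfectField K] [IsCurveOver K F]
    [Algebra.EssFiniteType K F] :
    ∃ x : F, Transcendental K x ∧ FiniteDimensional K⟮x⟯ F := by
  obtain ⟨s, hs, hsep, hrank⟩ := exists_finset_isTranscendenceBasis_finrank_kaehler (K := K) (F := F)
  rw [IsCurveOver.finrank_kaehler] at hrank
  obtain ⟨x, rfl⟩ := Finset.card_eq_one.mp hrank.symm
  refine ⟨x, ?_, ?_⟩
  · have h := hs.1.transcendental ⟨x, Finset.mem_singleton_self x⟩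
    exact h
  · have : Algebra.IsSeparable K⟮x⟯ F := by
      convert hsep <;> simp
    have : Algebra.IsAlgebraic K⟮x⟯ F := Algebra.IsSeparable.isAlgebraic K⟮x⟯ F
    have : Algebra.EssFiniteType K⟮x⟯ F := Algebra.EssFiniteType.of_comp K K⟮x⟯ F
    exact Algebra.finite_of_essFiniteType_of_isAlgebraic

/-- **T0** in the form needed by S27 (`K` algebraically closed of characteristic zero). -/
theorem exists_transcendental_finiteDimensional_of_isAlgClosed [IsAlgClosed K] [CharZero K]
    [IsCurveOver K F] [Algebra.EssFiniteType K F] :
    ∃ x : F, Transcendental K x ∧ FiniteDimensional K⟮x⟯ F :=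
  exists_transcendental_finiteDimensional

end Fermat.Agent.S27.H2186.T0
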