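import Mathlib

/-!
# Algebraic power series are convergent (S27, package B2 of the compact-group route)

For a normed field `𝕜` of characteristic zero, a formal power series `p : 𝕜⟦X⟧` which is algebraic
over `𝕜[X]` has geometrically bounded coefficients (`isConv_of_isAlgebraic`,
`exists_geom_bound_of_isAlgebraic`).

The proof is purely formal plus one majorant estimate (no implicit function theorem):

* `wsum K x f = ∑ k < K, ‖coeff k f‖ * x ^ k` is subadditive and submultiplicative;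
* a fixed point equation `w = A + X * P(X, w)` with polynomial data forces `wsum K x w ≤ Â + 1`
  for all `K` when `x` is small (`wsum_le_of_fixedPoint`);
* a root `z` of `Q ∈ 𝕜[X][Y]` which is simple at `X = 0` satisfies such an equation after the shift
  `z = z₀ + X w` (`isConv_of_simple_root`);
* a root `z` of `G` with `G_Y(X, z) ≠ 0` of order `r` is `p₀ + X ^ (r + 1) ζ` with `ζ` a simple root
  of an explicit `Q` (`isConv_of_separable_root`);
* induction on the degree of an annihilating polynomial (`isConv_of_isAlgebraic`).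
-/

set_option autoImplicit false

namespace Fermat.Agent.S27.H2186.AlgConv

open Polynomial

variable {𝕜 : Type*} [NormedField 𝕜]

/-- The weighted partial sum `∑ k < K, ‖f_k‖ x ^ k` of a formal power series. -/
noncomputable def wsum (K : ℕ) (x : ℝ) (f : PowerSeries 𝕜) : ℝ :=
  ∑ k ∈ Finset.range K, ‖PowerSeries.coeff k f‖ * x ^ k

theorem wsum_nonneg (K : ℕ) {x : ℝ} (hx : 0 ≤ x) (f : PowerSeries 𝕜) : 0 ≤ wsum K x f :=
  Finset.sum_nonneg fun k _ => mul_nonneg (norm_nonneg _) (pow_nonneg hx k)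

theorem wsum_add_le (K : ℕ) {x : ℝ} (hx : 0 ≤ x) (f g : PowerSeries 𝕜) :
    wsum K x (f + g) ≤ wsum K x f + wsum K x g := by
  unfold wsum
  rw [← Finset.sum_add_distrib]
  refine Finset.sum_le_sum fun k _ => ?_
  rw [map_add, ← add_mul]
  exact mul_le_mul_of_nonneg_right (norm_add_le _ _) (pow_nonneg hx k)

theorem wsum_sum_le {ι : Type*} (s : Finset ι) (K : ℕ) {x : ℝ} (hx : 0 ≤ x)
    (f : ι → PowerSeries 𝕜) : wsum K x (∑ i ∈ s, f i) ≤ ∑ i ∈ s, wsum K x (f i) := by
  classical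
  induction s using Finset.induction_on with
  | empty => simp [wsum]
  | insert a s ha ih =>
    rw [Finset.sum_insert ha, Finset.sum_insert ha]
    exact (wsum_add_le K hx _ _).trans (by gcongr)

theorem wsum_mul_le (K : ℕ) {x : ℝ} (hx : 0 ≤ x) (f g : PowerSeries 𝕜) :
    wsum K x (f * g) ≤ wsum K x f * wsum K x g := by
  classical
  unfold wsum
  rw [Finset.sum_mul_sum, ← Finset.sum_product']
  have h1 : ∀ k ∈ Finset.range K, ‖PowerSeries.coeff k (f * g)‖ * x ^ k ≤
      ∑ p ∈ Finset.HasAntidiagonal.antidiagonal k,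
        ‖PowerSeries.coeff p.1 f‖ * x ^ p.1 * (‖PowerSeries.coeff p.2 g‖ * x ^ p.2) := by
    intro k _
    rw [PowerSeries.coeff_mul]
    refine (mul_le_mul_of_nonneg_right (norm_sum_le _ _) (pow_nonneg hx k)).trans ?_
    rw [Finset.sum_mul]
    refine Finset.sum_le_sum fun p hp => ?_
    rw [Finset.HasAntidiagonal.mem_antidiagonal] at hp
    rw [norm_mul, ← hp, pow_add]
    apply le_of_eq
    ring
  refine (Finset.sum_le_sum h1).trans ?_
  rw [← Finset.sum_biUnion]
  · refine Finset.sum_le_sum_of_subset_of_nonneg ?_ ?_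
    · intro p hp
      rw [Finset.mem_biUnion] at hp
      obtain ⟨k, hk, hp⟩ := hp
      rw [Finset.HasAntidiagonal.mem_antidiagonal] at hp
      rw [Finset.mem_range] at hk
      rw [Finset.mem_product, Finset.mem_range, Finset.mem_range]
      omega
    · intro p _ _
      exact mul_nonneg (mul_nonneg (norm_nonneg _) (pow_nonneg hx _))
        (mul_nonneg (norm_nonneg _) (pow_nonneg hx _))
  · intro a _ b _ hab
    rw [Function.onFun, Finset.disjoint_left]
    intro p hpa hpb
    rw [Finset.HasAntidiagonal.mem_antidiagonal] at hpa hpb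
    exact hab (hpa.symm.trans hpb)

theorem wsum_one_le (K : ℕ) (x : ℝ) : wsum K x (1 : PowerSeries 𝕜) ≤ 1 := by
  unfold wsum
  rcases K with _ | K
  · simp
  · rw [Finset.sum_range_succ', Finset.sum_eq_zero]
    · simp
    · intro k _
      simp [PowerSeries.coeff_one]

theorem wsum_pow_le (K : ℕ) {x : ℝ} (hx : 0 ≤ x) (f : PowerSeries 𝕜) (j : ℕ) :
    wsum K x (f ^ j) ≤ wsum K x f ^ j := by
  induction j with
  | zero => simpa using wsum_one_le (𝕜 := 𝕜) K x
  | succ j ih =>
    rw [pow_succ, pow_succ]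
    exact (wsum_mul_le K hx _ _).trans
      (mul_le_mul_of_nonneg_right ih (wsum_nonneg K hx f))

theorem wsum_X_mul (K : ℕ) (x : ℝ) (f : PowerSeries 𝕜) :
    wsum (K + 1) x (PowerSeries.X * f) = x * wsum K x f := by
  unfold wsum
  rw [Finset.sum_range_succ', Finset.mul_sum]
  simp only [PowerSeries.coeff_zero_X_mul, norm_zero, zero_mul, add_zero]
  refine Finset.sum_congr rfl fun k _ => ?_
  rw [PowerSeries.coeff_succ_X_mul, pow_succ]
  ring

theorem wsum_mono (x : ℝ) (hx : 0 ≤ x) (f : PowerSeries 𝕜) {K K' : ℕ} (h : K ≤ K') :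
    wsum K x f ≤ wsum K' x f := by
  unfold wsum
  refine Finset.sum_le_sum_of_subset_of_nonneg ?_ ?_
  · intro k hk
    rw [Finset.mem_range] at hk ⊢
    omega
  · intro k _ _
    exact mul_nonneg (norm_nonneg _) (pow_nonneg hx k)

theorem wsum_mono_x (K : ℕ) (f : PowerSeries 𝕜) {x y : ℝ} (hx : 0 ≤ x) (hxy : x ≤ y) :
    wsum K x f ≤ wsum K y f := by
  unfold wsum
  refine Finset.sum_le_sum fun k _ => ?_
  exact mul_le_mul_of_nonneg_left (pow_le_pow_left₀ hx hxy k) (norm_nonneg _)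

/-- The `ℓ¹` norm of the coefficients of a polynomial. -/
noncomputable def pnorm (B : Polynomial 𝕜) : ℝ := ∑ k ∈ B.support, ‖B.coeff k‖

theorem pnorm_nonneg (B : Polynomial 𝕜) : 0 ≤ pnorm B :=
  Finset.sum_nonneg fun _ _ => norm_nonneg _

theorem wsum_coe_le (K : ℕ) {x : ℝ} (hx0 : 0 ≤ x) (hx1 : x ≤ 1) (B : Polynomial 𝕜) :
    wsum K x (B : PowerSeries 𝕜) ≤ pnorm B := by
  classical
  unfold wsum pnorm
  calc ∑ k ∈ Finset.range K, ‖PowerSeries.coeff k (B : PowerSeries 𝕜)‖ * x ^ k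
      ≤ ∑ k ∈ Finset.range K, ‖B.coeff k‖ := by
        refine Finset.sum_le_sum fun k _ => ?_
        rw [Polynomial.coeff_coe]
        exact mul_le_of_le_one_right (norm_nonneg _) (pow_le_one₀ hx0 hx1)
    _ = ∑ k ∈ (Finset.range K).filter (fun k => k ∈ B.support), ‖B.coeff k‖ := by
        refine (Finset.sum_filter_of_ne ?_).symm
        intro k _ hk
        rw [Polynomial.mem_support_iff]
        intro h0
        exact hk (by rw [h0, norm_zero])
    _ ≤ ∑ k ∈ B.support, ‖B.coeff k‖ := by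
        refine Finset.sum_le_sum_of_subset_of_nonneg ?_ fun _ _ _ => norm_nonneg _
        intro k hk
        exact (Finset.mem_filter.mp hk).2

/-- A power series with positive radius of convergence, in `ℓ¹` form. -/
def IsConv (f : PowerSeries 𝕜) : Prop :=
  ∃ x : ℝ, 0 < x ∧ ∃ M : ℝ, ∀ K, wsum K x f ≤ M

theorem IsConv.exists_le {f : PowerSeries 𝕜} (hf : IsConv f) {y : ℝ} (hy : 0 < y) :
    ∃ x : ℝ, 0 < x ∧ x ≤ y ∧ ∃ M : ℝ, ∀ K, wsum K x f ≤ M := by
  obtain ⟨x, hx, M, hM⟩ := hf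
  refine ⟨min x y, lt_min hx hy, min_le_right _ _, M, fun K => ?_⟩
  exact (wsum_mono_x K f (lt_min hx hy).le (min_le_left _ _)).trans (hM K)

theorem isConv_coe (B : Polynomial 𝕜) : IsConv (B : PowerSeries 𝕜) :=
  ⟨1, one_pos, pnorm B, fun K => wsum_coe_le K zero_le_one le_rfl B⟩

theorem IsConv.add {f g : PowerSeries 𝕜} (hf : IsConv f) (hg : IsConv g) : IsConv (f + g) := by
  obtain ⟨x, hx, M, hM⟩ := hf
  obtain ⟨y, hy, hyx, N, hN⟩ := hg.exists_le hx
  refine ⟨y, hy, M + N, fun K => ?_⟩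
  exact (wsum_add_le K hy.le f g).trans
    (add_le_add ((wsum_mono_x K f hy.le hyx).trans (hM K)) (hN K))

theorem IsConv.mul {f g : PowerSeries 𝕜} (hf : IsConv f) (hg : IsConv g) : IsConv (f * g) := by
  obtain ⟨x, hx, M, hM⟩ := hf
  obtain ⟨y, hy, hyx, N, hN⟩ := hg.exists_le hx
  refine ⟨y, hy, M * N, fun K => ?_⟩
  have h1 : wsum K y f ≤ M := (wsum_mono_x K f hy.le hyx).trans (hM K)
  exact (wsum_mul_le K hy.le f g).trans
    (mul_le_mul h1 (hN K) (wsum_nonneg K hy.le g) ((wsum_nonneg K hy.le f).trans h1))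

/-- Geometric growth of the coefficients of a convergent power series. -/
theorem IsConv.exists_geom_bound {f : PowerSeries 𝕜} (hf : IsConv f) :
    ∃ C R : ℝ, 0 ≤ C ∧ 0 < R ∧ ∀ k, ‖PowerSeries.coeff k f‖ ≤ C * R ^ k := by
  obtain ⟨x, hx, M, hM⟩ := hf
  have hM0 : 0 ≤ M := (wsum_nonneg 0 hx.le f).trans (hM 0)
  refine ⟨M, x⁻¹, hM0, inv_pos.mpr hx, fun k => ?_⟩
  have h1 : ‖PowerSeries.coeff k f‖ * x ^ k ≤ wsum (k + 1) x f := by
    unfold wsum
    rw [Finset.sum_range_succ]
    exact le_add_of_nonneg_left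
      (Finset.sum_nonneg fun i _ => mul_nonneg (norm_nonneg _) (pow_nonneg hx.le i))
  have h2 := h1.trans (hM (k + 1))
  rw [inv_pow, ← div_eq_mul_inv, le_div_iff₀ (pow_pos hx k)]
  exact h2

/-- Conversely, geometric growth of the coefficients gives convergence. -/
theorem isConv_of_geom_bound {f : PowerSeries 𝕜} {C R : ℝ}
    (h : ∀ k, ‖PowerSeries.coeff k f‖ ≤ C * R ^ k) : IsConv f := by
  have hC : 0 ≤ C := by
    have := h 0
    simp only [pow_zero, mul_one] at this
    exact (norm_nonneg _).trans this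
  refine ⟨(2 * (|R| + 1))⁻¹, by positivity, 2 * C, fun K => ?_⟩
  unfold wsum
  have h1 : ∀ k ∈ Finset.range K, ‖PowerSeries.coeff k f‖ * ((2 * (|R| + 1))⁻¹) ^ k ≤
      C * (1 / 2 : ℝ) ^ k := by
    intro k _
    have hR : ‖PowerSeries.coeff k f‖ ≤ C * (|R| + 1) ^ k := by
      refine (h k).trans ?_
      refine mul_le_mul_of_nonneg_left ?_ hC
      calc R ^ k ≤ |R ^ k| := le_abs_self _
        _ = |R| ^ k := abs_pow R k
        _ ≤ (|R| + 1) ^ k := pow_le_pow_left₀ (abs_nonneg R) (by linarith) k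
    calc ‖PowerSeries.coeff k f‖ * ((2 * (|R| + 1))⁻¹) ^ k
        ≤ C * (|R| + 1) ^ k * ((2 * (|R| + 1))⁻¹) ^ k :=
          mul_le_mul_of_nonneg_right hR (by positivity)
      _ = C * (1 / 2 : ℝ) ^ k := by
          rw [mul_assoc, ← mul_pow]
          congr 2
          field_simp
  refine (Finset.sum_le_sum h1).trans ?_
  rw [← Finset.mul_sum, mul_comm 2 C]
  refine mul_le_mul_of_nonneg_left ?_ hC
  have := sum_geometric_two_le K
  simpa using this

/-- Evaluation of `G ∈ 𝕜[X][Y]` at `Y = z ∈ 𝕜⟦X⟧`. -/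
noncomputable def ev (z : PowerSeries 𝕜) (G : Polynomial (Polynomial 𝕜)) : PowerSeries 𝕜 :=
  Polynomial.eval₂ (Polynomial.coeToPowerSeries.ringHom) z G

theorem ev_add (z : PowerSeries 𝕜) (G H : Polynomial (Polynomial 𝕜)) :
    ev z (G + H) = ev z G + ev z H := Polynomial.eval₂_add _ _

theorem ev_mul (z : PowerSeries 𝕜) (G H : Polynomial (Polynomial 𝕜)) :
    ev z (G * H) = ev z G * ev z H := Polynomial.eval₂_mul _ _

theorem ev_C (z : PowerSeries 𝕜) (B : Polynomial 𝕜) :
    ev z (Polynomial.C B) = (B : PowerSeries 𝕜) := Polynomial.eval₂_C _ _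

theorem ev_X (z : PowerSeries 𝕜) : ev z (Polynomial.X : Polynomial (Polynomial 𝕜)) = z :=
  Polynomial.eval₂_X _ _

theorem ev_pow (z : PowerSeries 𝕜) (G : Polynomial (Polynomial 𝕜)) (n : ℕ) :
    ev z (G ^ n) = ev z G ^ n := Polynomial.eval₂_pow _ _ _

theorem ev_comp (z : PowerSeries 𝕜) (G H : Polynomial (Polynomial 𝕜)) :
    ev z (G.comp H) = ev (ev z H) G := Polynomial.eval₂_comp _

theorem wsum_ev_le (K : ℕ) {x : ℝ} (hx0 : 0 ≤ x) (hx1 : x ≤ 1) (P : Polynomial (Polynomial 𝕜))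
    (w : PowerSeries 𝕜) :
    wsum K x (ev w P) ≤ ∑ j ∈ P.support, pnorm (P.coeff j) * wsum K x w ^ j := by
  unfold ev
  rw [Polynomial.eval₂_eq_sum, Polynomial.sum_def]
  refine (wsum_sum_le _ K hx0 _).trans (Finset.sum_le_sum fun j _ => ?_)
  refine (wsum_mul_le K hx0 _ _).trans ?_
  exact mul_le_mul (wsum_coe_le K hx0 hx1 _) (wsum_pow_le K hx0 w j) (wsum_nonneg K hx0 _)
    (pnorm_nonneg _)

/-- The majorant estimate for a fixed point equation `w = A + X * P(X, w)`. -/
theorem wsum_le_of_fixedPoint (A : Polynomial 𝕜) (P : Polynomial (Polynomial 𝕜))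
    (w : PowerSeries 𝕜) (hw : w = (A : PowerSeries 𝕜) + PowerSeries.X * ev w P) {x : ℝ}
    (hx0 : 0 ≤ x) (hx1 : x ≤ 1)
    (hx : x * (∑ j ∈ P.support, pnorm (P.coeff j) * (pnorm A + 1) ^ j) ≤ 1) (K : ℕ) :
    wsum K x w ≤ pnorm A + 1 := by
  induction K with
  | zero =>
    have := pnorm_nonneg A
    simp only [wsum, Finset.range_zero, Finset.sum_empty]
    linarith
  | succ K ih =>
    have h1 : wsum (K + 1) x w = wsum (K + 1) x ((A : PowerSeries 𝕜) + PowerSeries.X * ev w P) :=
      congrArg (wsum (K + 1) x) hw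
    rw [h1]
    refine (wsum_add_le _ hx0 _ _).trans ?_
    rw [wsum_X_mul]
    have h2 := wsum_ev_le K hx0 hx1 P w
    have h3 : ∑ j ∈ P.support, pnorm (P.coeff j) * wsum K x w ^ j ≤
        ∑ j ∈ P.support, pnorm (P.coeff j) * (pnorm A + 1) ^ j :=
      Finset.sum_le_sum fun j _ => mul_le_mul_of_nonneg_left
        (pow_le_pow_left₀ (wsum_nonneg K hx0 w) ih j) (pnorm_nonneg _)
    have h4 := wsum_coe_le (K + 1) hx0 hx1 A
    have h5 := mul_le_mul_of_nonneg_left (h2.trans h3) hx0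
    linarith

theorem isConv_of_fixedPoint (A : Polynomial 𝕜) (P : Polynomial (Polynomial 𝕜))
    (w : PowerSeries 𝕜) (hw : w = (A : PowerSeries 𝕜) + PowerSeries.X * ev w P) : IsConv w := by
  have hS : 0 ≤ ∑ j ∈ P.support, pnorm (P.coeff j) * (pnorm A + 1) ^ j :=
    Finset.sum_nonneg fun j _ => mul_nonneg (pnorm_nonneg _)
      (pow_nonneg (by have := pnorm_nonneg A; linarith) j)
  set S := ∑ j ∈ P.support, pnorm (P.coeff j) * (pnorm A + 1) ^ j with hSdef
  refine ⟨(S + 1)⁻¹, by positivity, pnorm A + 1, fun K => ?_⟩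
  refine wsum_le_of_fixedPoint A P w hw (by positivity) ?_ ?_ K
  · exact inv_le_one_of_one_le₀ (by linarith)
  · rw [← hSdef, inv_mul_le_iff₀ (by positivity)]
    linarith

theorem constantCoeff_ev_X_mul (w : PowerSeries 𝕜) (S : Polynomial (Polynomial 𝕜)) :
    PowerSeries.constantCoeff (ev (PowerSeries.X * w) S) = (S.coeff 0).coeff 0 := by
  conv_lhs => rw [← Polynomial.divX_mul_X_add S]
  rw [ev_add, ev_mul, ev_X, ev_C, map_add, map_mul, map_mul, PowerSeries.constantCoeff_X, zero_mul,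
    mul_zero, zero_add, Polynomial.constantCoeff_coe]

theorem isConv_X_mul {w : PowerSeries 𝕜} (hw : IsConv w) : IsConv (PowerSeries.X * w) := by
  have h := (isConv_coe (𝕜 := 𝕜) Polynomial.X).mul hw
  rwa [Polynomial.coe_X] at h

/-- A root which is simple at `X = 0` is convergent. -/
theorem isConv_of_simple_root (z : PowerSeries 𝕜) (Q : Polynomial (Polynomial 𝕜))
    (hQ : ev z Q = 0)
    (h1 : PowerSeries.constantCoeff (ev z (Polynomial.derivative Q)) ≠ 0) : IsConv z := by
  set z₀ : 𝕜 := PowerSeries.constantCoeff z with hz₀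
  set w : PowerSeries 𝕜 := PowerSeries.mk fun k => PowerSeries.coeff (k + 1) z with hwdef
  have hz : z = PowerSeries.X * w + PowerSeries.C z₀ := PowerSeries.eq_X_mul_shift_add_const z
  -- the shifted polynomial
  set R : Polynomial (Polynomial 𝕜) :=
    Q.comp (Polynomial.X + Polynomial.C (Polynomial.C z₀)) with hR
  have hshift : ∀ H : Polynomial (Polynomial 𝕜),
      ev (PowerSeries.X * w) (H.comp (Polynomial.X + Polynomial.C (Polynomial.C z₀))) = ev z H := by
    intro H
    rw [ev_comp, ev_add, ev_X, ev_C, Polynomial.coe_C, ← hz]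
  have hR0 : ev (PowerSeries.X * w) R = 0 := by rw [hR, hshift, hQ]
  have hRd : Polynomial.derivative R =
      (Polynomial.derivative Q).comp (Polynomial.X + Polynomial.C (Polynomial.C z₀)) := by
    rw [hR, Polynomial.derivative_comp]
    simp
  -- the coefficients
  set R₀ : Polynomial 𝕜 := R.coeff 0 with hR₀
  set R₁ : Polynomial 𝕜 := R.coeff 1 with hR₁
  have hR₀0 : R₀.coeff 0 = 0 := by
    rw [hR₀, ← constantCoeff_ev_X_mul w R, hR0, map_zero]
  set c₁ : 𝕜 := R₁.coeff 0 with hc₁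
  have hc₁0 : c₁ ≠ 0 := by
    have e1 : (Polynomial.derivative R).coeff 0 = R₁ := by
      rw [Polynomial.coeff_derivative]
      simp [hR₁]
    rw [hc₁, ← e1, ← constantCoeff_ev_X_mul w, hRd, hshift]
    exact h1
  set ρ₀ : Polynomial 𝕜 := R₀.divX with hρ₀
  set ρ₁ : Polynomial 𝕜 := R₁.divX with hρ₁
  have hR₀' : R₀ = ρ₀ * Polynomial.X := by
    have := Polynomial.divX_mul_X_add R₀
    rw [hR₀0, map_zero, add_zero] at this
    exact this.symm
  have hR₁' : R₁ = ρ₁ * Polynomial.X + Polynomial.C c₁ := (Polynomial.divX_mul_X_add R₁).symm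
  set T₂ : Polynomial (Polynomial 𝕜) := R.divX.divX with hT₂
  set T₃ : Polynomial (Polynomial 𝕜) :=
    T₂.comp (Polynomial.C Polynomial.X * Polynomial.X) with hT₃
  have hRdec : R = (T₂ * Polynomial.X + Polynomial.C R₁) * Polynomial.X + Polynomial.C R₀ := by
    have e1 := Polynomial.divX_mul_X_add R
    have e2 := Polynomial.divX_mul_X_add R.divX
    have e3 : R.divX.coeff 0 = R₁ := by rw [Polynomial.coeff_divX]
    rw [e3] at e2
    rw [hT₂, e2, hR₀, e1]
  have hT₃ev : ev w T₃ = ev (PowerSeries.X * w) T₂ := by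
    rw [hT₃, ev_comp, ev_mul, ev_C, ev_X, Polynomial.coe_X]
  -- the equation for `w`
  have key : PowerSeries.X * (PowerSeries.X * w ^ 2 * ev w T₃
      + ((ρ₁ : PowerSeries 𝕜) * PowerSeries.X + PowerSeries.C c₁) * w + (ρ₀ : PowerSeries 𝕜)) = 0 := by
    have e1 := hR0
    rw [hRdec, ev_add, ev_mul, ev_add, ev_mul, ev_X, ev_C, ev_C, ← hT₃ev, hR₀', hR₁',
      Polynomial.coe_mul, Polynomial.coe_add, Polynomial.coe_mul, Polynomial.coe_X,
      Polynomial.coe_C] at e1
    rw [← e1]
    ring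
  have key' : PowerSeries.X * w ^ 2 * ev w T₃
      + ((ρ₁ : PowerSeries 𝕜) * PowerSeries.X + PowerSeries.C c₁) * w + (ρ₀ : PowerSeries 𝕜) = 0 := by
    rcases mul_eq_zero.mp key with h | h
    · exact absurd h PowerSeries.X_ne_zero
    · exact h
  -- fixed point form
  set A : Polynomial 𝕜 := Polynomial.C (-c₁⁻¹) * ρ₀ with hA
  set P : Polynomial (Polynomial 𝕜) := Polynomial.C (Polynomial.C (-c₁⁻¹)) *
    (Polynomial.X ^ 2 * T₃ + Polynomial.C ρ₁ * Polynomial.X) with hP
  have hcc : (PowerSeries.C c₁⁻¹ : PowerSeries 𝕜) * PowerSeries.C c₁ = 1 := by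
    rw [← map_mul, inv_mul_cancel₀ hc₁0, map_one]
  have hfix : w = (A : PowerSeries 𝕜) + PowerSeries.X * ev w P := by
    rw [hA, hP, ev_mul, ev_C, ev_add, ev_mul, ev_pow, ev_X, ev_mul, ev_C, ev_X,
      Polynomial.coe_mul, Polynomial.coe_C, map_neg]
    linear_combination (PowerSeries.C c₁⁻¹ : PowerSeries 𝕜) * key' - w * hcc
  have hwc : IsConv w := isConv_of_fixedPoint A P w hfix
  rw [hz]
  have h2 := (isConv_X_mul hwc).add (isConv_coe (Polynomial.C z₀))
  rwa [Polynomial.coe_C] at h2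

theorem X_pow_dvd_of_coe {n : ℕ} {B : Polynomial 𝕜}
    (h : (PowerSeries.X : PowerSeries 𝕜) ^ n ∣ (B : PowerSeries 𝕜)) :
    (Polynomial.X : Polynomial 𝕜) ^ n ∣ B := by
  rw [Polynomial.X_pow_dvd_iff]
  rw [PowerSeries.X_pow_dvd_iff] at h
  intro d hd
  have := h d hd
  rwa [Polynomial.coeff_coe] at this

theorem coe_eval_eq_ev (p₀ : Polynomial 𝕜) (G : Polynomial (Polynomial 𝕜)) :
    ((G.eval p₀ : Polynomial 𝕜) : PowerSeries 𝕜) = ev (p₀ : PowerSeries 𝕜) G := by
  unfold ev
  have := Polynomial.hom_eval₂ G (RingHom.id _) (Polynomial.coeToPowerSeries.ringHom (R := 𝕜)) p₀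
  simpa [Polynomial.eval₂_id] using this

theorem sub_dvd_ev_sub (a b : PowerSeries 𝕜) (G : Polynomial (Polynomial 𝕜)) :
    a - b ∣ ev a G - ev b G := by
  unfold ev
  rw [← Polynomial.eval_map, ← Polynomial.eval_map]
  exact Polynomial.sub_dvd_eval_sub a b _

/-- A root `z` of `G` with `G_Y(X, z) ≠ 0` is convergent. -/
theorem isConv_of_separable_root (z : PowerSeries 𝕜) (G : Polynomial (Polynomial 𝕜))
    (hG : ev z G = 0) (hG' : ev z (Polynomial.derivative G) ≠ 0) : IsConv z := by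
  set Γ : PowerSeries 𝕜 := ev z (Polynomial.derivative G) with hΓ
  set r : ℕ := Γ.order.toNat with hr
  set γ : PowerSeries 𝕜 := PowerSeries.divXPowOrder Γ with hγ
  have hΓγ : PowerSeries.X ^ r * γ = Γ := PowerSeries.X_pow_order_mul_divXPowOrder
  have hγ0 : PowerSeries.constantCoeff γ ≠ 0 := by
    rw [Ne, PowerSeries.constantCoeff_divXPowOrder_eq_zero_iff]
    exact hG'
  obtain ⟨p₀, t, hz⟩ : ∃ (p₀ : Polynomial 𝕜) (t : PowerSeries 𝕜),
      z = PowerSeries.X ^ (2 * r + 1) * t + (p₀ : PowerSeries 𝕜) :=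
    ⟨_, _, PowerSeries.eq_X_pow_mul_shift_add_trunc (2 * r + 1) z⟩
  set ζ : PowerSeries 𝕜 := PowerSeries.X ^ r * t with hζ
  have hz' : z = PowerSeries.X ^ (r + 1) * ζ + (p₀ : PowerSeries 𝕜) := by
    rw [hζ]
    conv_lhs => rw [hz]
    ring
  have hsub : (p₀ : PowerSeries 𝕜) - z = PowerSeries.X ^ (2 * r + 1) * (-t) := by
    conv_lhs => rw [hz]
    ring
  -- divisibility
  have hdvd0 : (Polynomial.X : Polynomial 𝕜) ^ (2 * r + 1) ∣ G.eval p₀ := by
    apply X_pow_dvd_of_coe
    rw [coe_eval_eq_ev]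
    have h1 := sub_dvd_ev_sub (p₀ : PowerSeries 𝕜) z G
    rw [hG, sub_zero] at h1
    exact Dvd.dvd.trans ⟨-t, hsub⟩ h1
  have hdvd1 : (Polynomial.X : Polynomial 𝕜) ^ r ∣ (Polynomial.derivative G).eval p₀ := by
    apply X_pow_dvd_of_coe
    rw [coe_eval_eq_ev]
    have h1 := sub_dvd_ev_sub (p₀ : PowerSeries 𝕜) z (Polynomial.derivative G)
    have h2 : (PowerSeries.X : PowerSeries 𝕜) ^ r ∣ (p₀ : PowerSeries 𝕜) - z := by
      refine ⟨PowerSeries.X ^ (r + 1) * (-t), ?_⟩
      rw [hsub]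
      ring
    have h3 : (PowerSeries.X : PowerSeries 𝕜) ^ r ∣ ev z (Polynomial.derivative G) :=
      ⟨γ, hΓγ.symm⟩
    have h4 := dvd_add (h2.trans h1) h3
    rwa [sub_add_cancel] at h4
  -- the polynomials
  set T : Polynomial (Polynomial 𝕜) := G.comp (Polynomial.X + Polynomial.C p₀) with hT
  set F : Polynomial (Polynomial 𝕜) :=
    T.comp (Polynomial.C (Polynomial.X ^ (r + 1)) * Polynomial.X) with hF
  have hFev : ∀ H : Polynomial (Polynomial 𝕜),
      ev ζ ((H.comp (Polynomial.X + Polynomial.C p₀)).comp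
        (Polynomial.C (Polynomial.X ^ (r + 1)) * Polynomial.X)) = ev z H := by
    intro H
    rw [ev_comp, ev_comp, ev_mul, ev_C, ev_X, ev_add, ev_X, ev_C, Polynomial.coe_pow,
      Polynomial.coe_X, ← hz']
  have hF0 : ev ζ F = 0 := by rw [hF, hT, hFev, hG]
  have hTd : Polynomial.derivative T =
      (Polynomial.derivative G).comp (Polynomial.X + Polynomial.C p₀) := by
    rw [hT, Polynomial.derivative_comp]
    simp
  have hcoef : ∀ j, (Polynomial.X : Polynomial 𝕜) ^ (2 * r + 1) ∣ F.coeff j := by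
    intro j
    rw [hF, Polynomial.comp_C_mul_X_coeff]
    rcases j with _ | _ | j
    · rw [pow_zero, mul_one, Polynomial.coeff_zero_eq_eval_zero, hT, Polynomial.eval_comp]
      simpa using hdvd0
    · have e1 : T.coeff 1 = (Polynomial.derivative G).eval p₀ := by
        have e0 : (Polynomial.derivative T).coeff 0 = T.coeff 1 := by
          rw [Polynomial.coeff_derivative]
          simp
        rw [← e0, Polynomial.coeff_zero_eq_eval_zero, hTd, Polynomial.eval_comp]
        simp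
      have e2 : (Polynomial.X : Polynomial 𝕜) ^ (2 * r + 1) =
          Polynomial.X ^ r * Polynomial.X ^ (r + 1) := by
        rw [← pow_add]
        congr 1
        omega
      rw [e1, zero_add, pow_one, e2]
      exact mul_dvd_mul hdvd1 dvd_rfl
    · refine Dvd.dvd.mul_left ?_ _
      rw [← pow_mul]
      exact pow_dvd_pow _ (by nlinarith)
  obtain ⟨Q, hQ⟩ := (Polynomial.C_dvd_iff_dvd_coeff _ F).mpr hcoef
  have hXne : (PowerSeries.X : PowerSeries 𝕜) ^ (2 * r + 1) ≠ 0 :=
    pow_ne_zero _ PowerSeries.X_ne_zero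
  have hQ0 : ev ζ Q = 0 := by
    have e1 := hF0
    rw [hQ, ev_mul, ev_C, Polynomial.coe_pow, Polynomial.coe_X] at e1
    exact (mul_eq_zero.mp e1).resolve_left hXne
  have hQd : ev ζ (Polynomial.derivative Q) = γ := by
    have e1 : Polynomial.derivative F =
        Polynomial.C (Polynomial.X ^ (2 * r + 1)) * Polynomial.derivative Q := by
      rw [hQ, Polynomial.derivative_C_mul]
    have e2 : Polynomial.derivative F = Polynomial.C (Polynomial.X ^ (r + 1)) *
        ((Polynomial.derivative G).comp (Polynomial.X + Polynomial.C p₀)).comp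
          (Polynomial.C (Polynomial.X ^ (r + 1)) * Polynomial.X) := by
      have e0 : Polynomial.derivative (Polynomial.C (Polynomial.X ^ (r + 1)) *
          (Polynomial.X : Polynomial (Polynomial 𝕜))) = Polynomial.C (Polynomial.X ^ (r + 1)) := by
        rw [Polynomial.derivative_C_mul, Polynomial.derivative_X, mul_one]
      rw [hF, Polynomial.derivative_comp, hTd, e0]
    have e3 : ev ζ (Polynomial.derivative F) = PowerSeries.X ^ (r + 1) * Γ := by
      rw [e2, ev_mul, ev_C, hFev, Polynomial.coe_pow, Polynomial.coe_X]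
    rw [e1, ev_mul, ev_C, Polynomial.coe_pow, Polynomial.coe_X, ← hΓγ] at e3
    have e4 : (PowerSeries.X : PowerSeries 𝕜) ^ (2 * r + 1) * ev ζ (Polynomial.derivative Q) =
        PowerSeries.X ^ (2 * r + 1) * γ := by
      rw [e3]
      ring
    exact mul_left_cancel₀ hXne e4
  have hζc : IsConv ζ := isConv_of_simple_root ζ Q hQ0 (by rw [hQd]; exact hγ0)
  rw [hz']
  have h2 := ((isConv_coe (𝕜 := 𝕜) (Polynomial.X ^ (r + 1))).mul hζc).add (isConv_coe p₀)
  rwa [Polynomial.coe_pow, Polynomial.coe_X] at h2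

theorem isConv_of_root [CharZero 𝕜] (z : PowerSeries 𝕜) :
    ∀ (d : ℕ) (G : Polynomial (Polynomial 𝕜)), G ≠ 0 → G.natDegree ≤ d → ev z G = 0 →
      IsConv z := by
  have hconst : ∀ G : Polynomial (Polynomial 𝕜), G ≠ 0 → G.natDegree = 0 → ev z G = 0 → False := by
    intro G hG hd0 h0
    obtain ⟨g, rfl⟩ := Polynomial.natDegree_eq_zero.mp hd0
    rw [ev_C, Polynomial.coe_eq_zero_iff] at h0
    exact hG (by rw [h0, map_zero])
  intro d
  induction d with
  | zero =>
    intro G hG hd h0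
    exact (hconst G hG (Nat.le_zero.mp hd) h0).elim
  | succ d ih =>
    intro G hG hd h0
    by_cases hd0 : G.natDegree = 0
    · exact (hconst G hG hd0 h0).elim
    by_cases h' : ev z (Polynomial.derivative G) = 0
    · refine ih (Polynomial.derivative G) ?_ ?_ h'
      · intro hder
        exact hd0 (Polynomial.derivative_eq_zero.mp hder)
      · have := Polynomial.natDegree_derivative_lt hd0
        omega
    · exact isConv_of_separable_root z G h0 h'

/-- **Algebraic power series are convergent**: a formal power series over a normed field of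
characteristic zero which is algebraic over the polynomial ring has positive radius of
convergence. -/
theorem isConv_of_isAlgebraic [CharZero 𝕜] (z : PowerSeries 𝕜)
    (h : IsAlgebraic (Polynomial 𝕜) z) : IsConv z := by
  obtain ⟨G, hG, h0⟩ := h
  refine isConv_of_root z G.natDegree G hG le_rfl ?_
  rw [Polynomial.aeval_def] at h0
  unfold ev
  have hhom : (algebraMap (Polynomial 𝕜) (PowerSeries 𝕜)) =
      (Polynomial.coeToPowerSeries.ringHom : Polynomial 𝕜 →+* PowerSeries 𝕜) := by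
    refine RingHom.ext fun p => ?_
    rw [PowerSeries.algebraMap_apply', Algebra.algebraMap_self, PowerSeries.map_id]
    rfl
  rw [← hhom]
  exact h0

/-- Geometric growth of the coefficients of an algebraic power series. -/
theorem exists_geom_bound_of_isAlgebraic [CharZero 𝕜] (z : PowerSeries 𝕜)
    (h : IsAlgebraic (Polynomial 𝕜) z) :
    ∃ C R : ℝ, 0 ≤ C ∧ 0 < R ∧ ∀ k, ‖PowerSeries.coeff k z‖ ≤ C * R ^ k :=
  (isConv_of_isAlgebraic z h).exists_geom_bound

end Fermat.Agent.S27.H2186.AlgConv
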