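import Mathlib
import Fermat.Prelude.Def_AlgebraicCurve_DivisorClassGroup

set_option autoImplicit false

open PowerSeries IsLocalRing

namespace Fermat.Agent.S27.H2186.TAdic6326

noncomputable section

variable {K O : Type*} [Field K] [CommRing O] [IsDomain O] [IsDiscreteValuationRing O]
  [Algebra K O]

/-- The residue map `O → K` when `K` maps onto the residue field. -/
def resK (hres : Function.Surjective (algebraMap K (ResidueField O))) : O →ₐ[K] K :=
  ((AlgEquiv.ofBijective (Algebra.ofId K (ResidueField O))
      ⟨(algebraMap K (ResidueField O)).injective, hres⟩).symm : ResidueField O →ₐ[K] K).comp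
    (IsScalarTower.toAlgHom K O (ResidueField O))

lemma algebraMap_resK (hres : Function.Surjective (algebraMap K (ResidueField O))) (f : O) :
    algebraMap K (ResidueField O) (resK hres f) = residue O f := by
  have := (AlgEquiv.ofBijective (Algebra.ofId K (ResidueField O))
      ⟨(algebraMap K (ResidueField O)).injective, hres⟩).apply_symm_apply (residue O f)
  exact this

lemma sub_resK_mem (hres : Function.Surjective (algebraMap K (ResidueField O))) (f : O) :
    f - algebraMap K O (resK hres f) ∈ maximalIdeal O := by
  rw [← IsLocalRing.residue_eq_zero_iff, map_sub, ← algebraMap_resK hres f]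
  have : residue O (algebraMap K O (resK hres f))
      = algebraMap K (ResidueField O) (resK hres f) := rfl
  rw [this, sub_self]

lemma resK_eq_zero_iff (hres : Function.Surjective (algebraMap K (ResidueField O))) (f : O) :
    resK hres f = 0 ↔ f ∈ maximalIdeal O := by
  rw [← IsLocalRing.residue_eq_zero_iff, ← algebraMap_resK hres f]
  exact (map_eq_zero_iff _ (algebraMap K (ResidueField O)).injective).symm

lemma exists_shift (hres : Function.Surjective (algebraMap K (ResidueField O))) {ϖ : O}
    (hϖ : Irreducible ϖ) (f : O) : ∃ g : O, f = algebraMap K O (resK hres f) + ϖ * g := by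
  have h := sub_resK_mem hres f
  rw [hϖ.maximalIdeal_eq, Ideal.mem_span_singleton'] at h
  obtain ⟨g, hg⟩ := h
  exact ⟨g, by rw [mul_comm, hg]; ring⟩

/-- `(f - f(P)) / ϖ` -/
def shift (hres : Function.Surjective (algebraMap K (ResidueField O))) {ϖ : O}
    (hϖ : Irreducible ϖ) : O →ₗ[K] O where
  toFun f := Classical.choose (exists_shift hres hϖ f)
  map_add' f g := by
    have hf := Classical.choose_spec (exists_shift hres hϖ f)
    have hg := Classical.choose_spec (exists_shift hres hϖ g)
    have hfg := Classical.choose_spec (exists_shift hres hϖ (f + g))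
    have e : algebraMap K O (resK hres (f + g))
        = algebraMap K O (resK hres f) + algebraMap K O (resK hres g) := by
      rw [map_add, map_add]
    apply mul_left_cancel₀ hϖ.ne_zero
    linear_combination hf + hg - hfg - e
  map_smul' c f := by
    have hf := Classical.choose_spec (exists_shift hres hϖ f)
    have hcf := Classical.choose_spec (exists_shift hres hϖ (c • f))
    have e : algebraMap K O (resK hres (c • f))
        = algebraMap K O c * algebraMap K O (resK hres f) := by
      rw [map_smul, smul_eq_mul, map_mul]
    have e2 : c • f = algebraMap K O c * f := Algebra.smul_def c f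
    apply mul_left_cancel₀ hϖ.ne_zero
    have e3 : c • Classical.choose (exists_shift hres hϖ f)
        = algebraMap K O c * Classical.choose (exists_shift hres hϖ f) := Algebra.smul_def _ _
    rw [RingHom.id_apply]
    linear_combination -hcf + e2 + (algebraMap K O c) * hf - e - ϖ * e3

lemma shift_spec (hres : Function.Surjective (algebraMap K (ResidueField O))) {ϖ : O}
    (hϖ : Irreducible ϖ) (f : O) :
    f = algebraMap K O (resK hres f) + ϖ * shift hres hϖ f :=
  Classical.choose_spec (exists_shift hres hϖ f)

lemma resK_shift_unique (hres : Function.Surjective (algebraMap K (ResidueField O))) {ϖ : O}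
    (hϖ : Irreducible ϖ) {f g : O} {a : K} (h : f = algebraMap K O a + ϖ * g) :
    resK hres f = a ∧ shift hres hϖ f = g := by
  have h1 : resK hres f = a := by
    have hϖ0 : resK hres ϖ = 0 := by
      rw [resK_eq_zero_iff, hϖ.maximalIdeal_eq]
      exact Ideal.mem_span_singleton_self ϖ
    rw [h, map_add, map_mul, hϖ0, zero_mul, add_zero, AlgHom.commutes]
    rfl
  refine ⟨h1, ?_⟩
  have h2 := shift_spec hres hϖ f
  rw [h1] at h2
  apply mul_left_cancel₀ hϖ.ne_zero
  linear_combination h - h2

/-- the `ϖ`-adic expansion, as a linear map -/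
def expandₗ (hres : Function.Surjective (algebraMap K (ResidueField O))) {ϖ : O}
    (hϖ : Irreducible ϖ) : O →ₗ[K] PowerSeries K where
  toFun f := PowerSeries.mk fun n => resK hres ((shift hres hϖ ^ n) f)
  map_add' f g := by
    ext n
    simp
  map_smul' c f := by
    ext n
    simp

lemma expandₗ_eq (hres : Function.Surjective (algebraMap K (ResidueField O))) {ϖ : O}
    (hϖ : Irreducible ϖ) (f : O) :
    expandₗ hres hϖ f = C (resK hres f) + X * expandₗ hres hϖ (shift hres hϖ f) := by
  ext n
  cases n with
  | zero => simp [expandₗ]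
  | succ n =>
    rw [map_add, coeff_succ_X_mul]
    simp [expandₗ, pow_succ]

lemma expandₗ_of_eq (hres : Function.Surjective (algebraMap K (ResidueField O))) {ϖ : O}
    (hϖ : Irreducible ϖ) {f g : O} {a : K} (h : f = algebraMap K O a + ϖ * g) :
    expandₗ hres hϖ f = C a + X * expandₗ hres hϖ g := by
  obtain ⟨h1, h2⟩ := resK_shift_unique hres hϖ h
  rw [expandₗ_eq, h1, h2]

lemma expandₗ_mul (hres : Function.Surjective (algebraMap K (ResidueField O))) {ϖ : O}
    (hϖ : Irreducible ϖ) (f g : O) :
    expandₗ hres hϖ (f * g) = expandₗ hres hϖ f * expandₗ hres hϖ g := by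
  ext n
  induction n using Nat.strong_induction_on generalizing f g with
  | _ n ih =>
    set a := resK hres f
    set b := resK hres g
    set f' := shift hres hϖ f
    set g' := shift hres hϖ g
    have hf : f = algebraMap K O a + ϖ * f' := shift_spec hres hϖ f
    have hg : g = algebraMap K O b + ϖ * g' := shift_spec hres hϖ g
    have hfg : f * g = algebraMap K O (a * b) + ϖ * (a • g' + b • f' + ϖ * (f' * g')) := by
      rw [map_mul, Algebra.smul_def, Algebra.smul_def]
      nth_rewrite 1 [hf, hg]
      ring
    have hϖh : ∀ h : O, expandₗ hres hϖ (ϖ * h) = X * expandₗ hres hϖ h := by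
      intro h
      have := expandₗ_of_eq hres hϖ (f := ϖ * h) (g := h) (a := 0) (by simp)
      simpa using this
    have h1 : expandₗ hres hϖ (f * g) = C (a * b)
        + X * (a • expandₗ hres hϖ g' + b • expandₗ hres hϖ f')
        + X ^ 2 * expandₗ hres hϖ (f' * g') := by
      rw [expandₗ_of_eq hres hϖ hfg, map_add, map_add, map_smul, map_smul, hϖh]
      ring
    have h2 : expandₗ hres hϖ f * expandₗ hres hϖ g = C (a * b)
        + X * (a • expandₗ hres hϖ g' + b • expandₗ hres hϖ f')
        + X ^ 2 * (expandₗ hres hϖ f' * expandₗ hres hϖ g') := by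
      rw [expandₗ_eq hres hϖ f, expandₗ_eq hres hϖ g, map_mul, PowerSeries.smul_eq_C_mul,
        PowerSeries.smul_eq_C_mul]
      ring
    rw [h1, h2]
    simp only [map_add, coeff_X_pow_mul']
    congr 1
    split_ifs with hn
    · exact ih (n - 2) (by omega) f' g'
    · rfl

/-- the `ϖ`-adic expansion `O →ₐ[K] K⟦X⟧` of a discrete valuation ring whose residue field is
`K`. -/
def expand (hres : Function.Surjective (algebraMap K (ResidueField O))) {ϖ : O}
    (hϖ : Irreducible ϖ) : O →ₐ[K] PowerSeries K :=
  AlgHom.ofLinearMap (expandₗ hres hϖ)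
    (by
      have := expandₗ_of_eq hres hϖ (f := (1 : O)) (g := 0) (a := 1) (by simp)
      simpa using this)
    (expandₗ_mul hres hϖ)

@[simp]
lemma expand_apply (hres : Function.Surjective (algebraMap K (ResidueField O))) {ϖ : O}
    (hϖ : Irreducible ϖ) (f : O) : expand hres hϖ f = expandₗ hres hϖ f := rfl

lemma expand_of_eq (hres : Function.Surjective (algebraMap K (ResidueField O))) {ϖ : O}
    (hϖ : Irreducible ϖ) {f g : O} {a : K} (h : f = algebraMap K O a + ϖ * g) :
    expand hres hϖ f = C a + X * expand hres hϖ g :=
  expandₗ_of_eq hres hϖ h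

/-- the uniformizer expands to `X` -/
lemma expand_uniformizer (hres : Function.Surjective (algebraMap K (ResidueField O))) {ϖ : O}
    (hϖ : Irreducible ϖ) : expand hres hϖ ϖ = X := by
  rw [expand_of_eq hres hϖ (f := ϖ) (g := 1) (a := 0) (by simp), map_one, map_zero, zero_add,
    mul_one]

/-- the constant coefficient is the residue -/
lemma constantCoeff_expand (hres : Function.Surjective (algebraMap K (ResidueField O))) {ϖ : O}
    (hϖ : Irreducible ϖ) (f : O) :
    constantCoeff (expand hres hϖ f) = resK hres f := by
  rw [expand_apply, expandₗ_eq]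
  simp

lemma coeff_zero_expand (hres : Function.Surjective (algebraMap K (ResidueField O))) {ϖ : O}
    (hϖ : Irreducible ϖ) (f : O) :
    algebraMap K (ResidueField O) (coeff 0 (expand hres hϖ f)) = residue O f := by
  rw [coeff_zero_eq_constantCoeff_apply, constantCoeff_expand, algebraMap_resK]

/-- a unit expands to a power series with nonzero constant coefficient -/
lemma constantCoeff_expand_ne_zero (hres : Function.Surjective (algebraMap K (ResidueField O)))
    {ϖ : O} (hϖ : Irreducible ϖ) {u : O} (hu : IsUnit u) :
    constantCoeff (expand hres hϖ u) ≠ 0 := by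
  rw [constantCoeff_expand, Ne, resK_eq_zero_iff]
  exact fun h => (IsLocalRing.mem_maximalIdeal u).mp h hu

lemma order_expand_unit (hres : Function.Surjective (algebraMap K (ResidueField O)))
    {ϖ : O} (hϖ : Irreducible ϖ) {u : O} (hu : IsUnit u) :
    (expand hres hϖ u).order = 0 :=
  PowerSeries.order_zero_of_unit
    (PowerSeries.isUnit_iff_constantCoeff.mpr
      (isUnit_iff_ne_zero.mpr (constantCoeff_expand_ne_zero hres hϖ hu)))

/-- the order of the expansion of `u * ϖ ^ n` is `n` -/
lemma order_expand_unit_mul_pow (hres : Function.Surjective (algebraMap K (ResidueField O)))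
    {ϖ : O} (hϖ : Irreducible ϖ) {u : O} (hu : IsUnit u) (n : ℕ) :
    (expand hres hϖ (u * ϖ ^ n)).order = n := by
  rw [map_mul, map_pow, expand_uniformizer, PowerSeries.order_mul, order_expand_unit hres hϖ hu,
    zero_add, PowerSeries.order_X_pow]

lemma expand_injective (hres : Function.Surjective (algebraMap K (ResidueField O)))
    {ϖ : O} (hϖ : Irreducible ϖ) : Function.Injective (expand hres hϖ) := by
  rw [injective_iff_map_eq_zero]
  intro f hf
  by_contra hf0
  obtain ⟨n, u, rfl⟩ := IsDiscreteValuationRing.eq_unit_mul_pow_irreducible hf0 hϖ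
  have h := order_expand_unit_mul_pow hres hϖ u.isUnit n
  rw [hf, PowerSeries.order_zero] at h
  exact ENat.top_ne_natCast n h

/-! ### Laurent expansion of a function field at a place -/

section Place

open AlgebraicCurve

variable {K F : Type*} [Field K] [Field F] [Algebra K F] (v : Place K F)

/-- an element of order one is a uniformizer -/
lemma mem_of_ord_eq_one {t : F} (ht : v.ord t = 1) : t ∈ v.toValuationSubring := by
  have ht0 : t ≠ 0 := by rintro rfl; simp at ht
  obtain ⟨π, hπ⟩ := IsDiscreteValuationRing.exists_irreducible v.toValuationSubring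
  obtain ⟨u, hu⟩ := v.exists_unit_mul_zpow ht0 hπ
  rw [ht, zpow_one] at hu
  rw [hu]
  exact v.toValuationSubring.mul_mem _ _ (u : v.toValuationSubring).2 π.2

lemma irreducible_of_ord_eq_one {t : F} (ht : v.ord t = 1) :
    Irreducible (⟨t, mem_of_ord_eq_one v ht⟩ : v.toValuationSubring) := by
  have ht0 : t ≠ 0 := by rintro rfl; simp at ht
  obtain ⟨π, hπ⟩ := IsDiscreteValuationRing.exists_irreducible v.toValuationSubring
  obtain ⟨u, hu⟩ := v.exists_unit_mul_zpow ht0 hπ
  rw [ht, zpow_one] at hu
  have : (⟨t, mem_of_ord_eq_one v ht⟩ : v.toValuationSubring) = (u : v.toValuationSubring) * π :=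
    Subtype.ext hu
  rw [this]
  exact (irreducible_isUnit_mul u.isUnit).mpr hπ

/-- The Laurent expansion `F →+* K⸨X⸩` at a place with residue field `K`, with respect to a
uniformizer `ϖ`. -/
def laurent (hres : Function.Surjective (algebraMap K v.ResidueField))
    {ϖ : v.toValuationSubring} (hϖ : Irreducible ϖ) : F →+* LaurentSeries K :=
  IsFractionRing.lift (A := v.toValuationSubring)
    (g := (HahnSeries.ofPowerSeries ℤ K).comp (expand hres hϖ).toRingHom)
    (HahnSeries.ofPowerSeries_injective.comp (expand_injective hres hϖ))

lemma laurent_coe (hres : Function.Surjective (algebraMap K v.ResidueField))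
    {ϖ : v.toValuationSubring} (hϖ : Irreducible ϖ) (f : v.toValuationSubring) :
    laurent v hres hϖ (f : F) = HahnSeries.ofPowerSeries ℤ K (expand hres hϖ f) :=
  IsFractionRing.lift_algebraMap
    (HahnSeries.ofPowerSeries_injective.comp (expand_injective hres hϖ)) f

lemma laurent_algebraMap (hres : Function.Surjective (algebraMap K v.ResidueField))
    {ϖ : v.toValuationSubring} (hϖ : Irreducible ϖ) (c : K) :
    laurent v hres hϖ (algebraMap K F c) = HahnSeries.C c := by
  have h := laurent_coe v hres hϖ (algebraMap K v.toValuationSubring c)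
  rw [v.coe_algebraMap] at h
  rw [h, AlgHom.commutes]
  exact HahnSeries.ofPowerSeries_C c

lemma laurent_uniformizer (hres : Function.Surjective (algebraMap K v.ResidueField))
    {ϖ : v.toValuationSubring} (hϖ : Irreducible ϖ) :
    laurent v hres hϖ (ϖ : F) = HahnSeries.single 1 1 := by
  rw [laurent_coe, expand_uniformizer]
  exact HahnSeries.ofPowerSeries_X

lemma laurent_injective (hres : Function.Surjective (algebraMap K v.ResidueField))
    {ϖ : v.toValuationSubring} (hϖ : Irreducible ϖ) :
    Function.Injective (laurent v hres hϖ) :=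
  (laurent v hres hϖ).injective

/-- the expansion of a unit of the valuation ring has order `0` -/
lemma order_laurent_unit (hres : Function.Surjective (algebraMap K v.ResidueField))
    {ϖ : v.toValuationSubring} (hϖ : Irreducible ϖ) {u : v.toValuationSubring} (hu : IsUnit u) :
    (laurent v hres hϖ (u : F)).order = 0 := by
  rw [laurent_coe]
  have hc := constantCoeff_expand_ne_zero hres hϖ hu
  set p := expand hres hϖ u
  have h0 : (HahnSeries.ofPowerSeries ℤ K p).coeff 0 ≠ 0 := by
    have := PowerSeries.coeff_coe (f := p) 0
    rw [this]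
    simpa using hc
  apply le_antisymm (HahnSeries.order_le_of_coeff_ne_zero h0)
  by_contra hlt
  rw [not_le] at hlt
  have hne : HahnSeries.ofPowerSeries ℤ K p ≠ 0 := by
    intro h
    rw [h] at h0
    simp at h0
  have h1 := HahnSeries.coeff_order_eq_zero.not.mpr hne
  rw [PowerSeries.coeff_coe, if_pos hlt] at h1
  exact h1 rfl

/-- **The order of the Laurent expansion is the order at the place.** -/
lemma order_laurent (hres : Function.Surjective (algebraMap K v.ResidueField))
    {ϖ : v.toValuationSubring} (hϖ : Irreducible ϖ) {f : F} (hf : f ≠ 0) :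
    (laurent v hres hϖ f).order = v.ord f := by
  obtain ⟨u, hu⟩ := v.exists_unit_mul_zpow hf hϖ
  have hϖ0 : (ϖ : F) ≠ 0 := by
    simpa [ne_eq, ZeroMemClass.coe_eq_zero] using hϖ.ne_zero
  have hu0 : laurent v hres hϖ ((u : v.toValuationSubring) : F) ≠ 0 := by
    rw [Ne, _root_.map_eq_zero]
    simp
  have hz : (laurent v hres hϖ (ϖ : F)) ^ (v.ord f) = HahnSeries.single (v.ord f) 1 := by
    rw [laurent_uniformizer]
    exact (RatFunc.single_zpow (F := K) (v.ord f)).symm
  conv_lhs => rw [hu]
  rw [map_mul, map_zpow₀, hz, HahnSeries.order_mul hu0 (by simp), order_laurent_unit v hres hϖ u.isUnit,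
    zero_add, HahnSeries.order_single one_ne_zero]

/-- the constant coefficient of the expansion of an integral element is its residue -/
lemma coeff_zero_laurent (hres : Function.Surjective (algebraMap K v.ResidueField))
    {ϖ : v.toValuationSubring} (hϖ : Irreducible ϖ) (f : v.toValuationSubring) :
    algebraMap K v.ResidueField ((laurent v hres hϖ (f : F)).coeff 0)
      = IsLocalRing.residue v.toValuationSubring f := by
  rw [laurent_coe]
  have := PowerSeries.coeff_coe (f := expand hres hϖ f) 0
  rw [this]
  simpa using coeff_zero_expand hres hϖ f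

end Place

end

end Fermat.Agent.S27.H2186.TAdic6326
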